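import Fermat.Statements.S21
import Mathlib
import Fermat.Prelude.Def_CuspForm_HeckeAlgebra
import Fermat.Agent.MUL.S21.Parabolic
import Fermat.Agent.MUL.S21.Injective
import Fermat.Agent.MUL.S21.ReInvariant
import Fermat.Agent.MUL.S21.GroupFinal
import Fermat.Agent.MUL.S20
import Fermat.Agent.MUL.Orig.F3.EigenReduction
import Fermat.Agent.MUL.F3.EigenChar.PeriodEigen
import Fermat.Agent.MUL.F3.Transfer.Wrap

section MergeWrap_S21_Assembly -- from S21/Assembly.lean

/-!
# S21: assembly of the Eichler–Shimura statement from its pieces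
-/

set_option autoImplicit false

open CongruenceSubgroup ModularCurve ModularCurve.Period
open scoped MatrixGroups

namespace Fermat.Agent.S21

/-- The cusp forms are finite-dimensional as soon as `periodHomPair` is injective and the
parabolic homomorphisms are finite-dimensional. -/
theorem finiteDimensional_cuspForm_of_injective (N : ℕ) [NeZero N]
    (hinj : Function.Injective (periodHomPair N))
    (hfin : FiniteDimensional ℂ (parabolicHoms ℂ (Gamma0 N) ℂ)) :
    FiniteDimensional ℂ (CuspForm (Gamma0 N) 2) := by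
  have hprod : FiniteDimensional ℂ (CuspForm (Gamma0 N) 2 × CuspForm (Gamma0 N) 2) := by
    let φ : (CuspForm (Gamma0 N) 2 × CuspForm (Gamma0 N) 2) →ₗ[ℂ] parabolicHoms ℂ (Gamma0 N) ℂ :=
      (periodHomPair N).codRestrict _ fun x => range_periodHomPair_le N ⟨x, rfl⟩
    have hφ : Function.Injective φ := fun x y hxy => hinj (congrArg Subtype.val hxy)
    exact FiniteDimensional.of_injective φ hφ
  exact FiniteDimensional.of_injective
    (LinearMap.inl ℂ (CuspForm (Gamma0 N) 2) (CuspForm (Gamma0 N) 2)) LinearMap.inl_injective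

/-- Assembly: injectivity + dimension bound give the Eichler–Shimura statement. -/
theorem eichlerShimura_of_pieces (N : ℕ) [NeZero N]
    (hinj : Function.Injective (periodHomPair N))
    (hfin : FiniteDimensional ℂ (parabolicHoms ℂ (Gamma0 N) ℂ))
    (hdim : Module.finrank ℂ (parabolicHoms ℂ (Gamma0 N) ℂ)
      ≤ 2 * Module.finrank ℂ (CuspForm (Gamma0 N) 2)) :
    Function.Injective (periodHomPair N)
      ∧ LinearMap.range (periodHomPair N) = parabolicHoms ℂ (Gamma0 N) ℂ := by
  refine ⟨hinj, ?_⟩
  haveI := hfin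
  haveI := finiteDimensional_cuspForm_of_injective N hinj hfin
  have h1 : Module.finrank ℂ (LinearMap.range (periodHomPair N)) =
      2 * Module.finrank ℂ (CuspForm (Gamma0 N) 2) := by
    rw [LinearMap.finrank_range_of_inj hinj, Module.finrank_prod]
    ring
  exact Submodule.eq_of_le_of_finrank_le (range_periodHomPair_le N) (by rw [h1]; exact hdim)

end Fermat.Agent.S21
end MergeWrap_S21_Assembly

section MergeWrap_S21 -- from S21.lean

set_option autoImplicit false
open ModularCurve

namespace Fermat.Agent.S21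

theorem result (N : ℕ) [NeZero N] :
    Function.Injective (ModularCurve.periodHomPair N)
      ∧ LinearMap.range (ModularCurve.periodHomPair N)
          = ModularCurve.Period.parabolicHoms ℂ (CongruenceSubgroup.Gamma0 N) ℂ := by
  have hC : ReInvariantConst N := fun hH hinv hcusp =>
    const_of_re_invariant (Γ := CongruenceSubgroup.Gamma0 N) (N := N) (Gamma_le_Gamma0 N)
      hH hinv hcusp
  refine eichlerShimura_of_pieces N (periodHomPair_injective N hC)
    (finiteDimensional_parabolicHoms N) ?_
  have h1 := finrank_parabolicHoms_le N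
  have h2 := Fermat.Agent.S20.result N
  have h3 : (Module.finrank ℂ (ModularCurve.Period.parabolicHoms ℂ
      (CongruenceSubgroup.Gamma0 N) ℂ) : ℚ) ≤
      ((2 * Module.finrank ℂ (CuspForm (CongruenceSubgroup.Gamma0 N) 2) : ℕ) : ℚ) := by
    push_cast
    rw [h2]
    exact h1
  exact_mod_cast h3

end Fermat.Agent.S21
end MergeWrap_S21

section MergeWrap_F3_EigenPadic_Algebra -- from F3/EigenPadic/Algebra.lean

set_option autoImplicit false

/-!
# Cluster A (F3), p-adic eigenclass, algebraic core  (owner: helper21)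

`exists_eigenvector_of_character`: a commutative ring `T` acting FAITHFULLY on a finite free
`ℤ`-module `M` (through `θ : T →+* End_ℤ M`), and a ring homomorphism `χ : T →+* O` to a domain.
Then `O ⊗ M` contains a nonzero vector `x` with `t x = χ(t) x` for all `t ∈ T`.

Proof: determinant trick on the dual lattice (all `r × r` minors of the stacked system
`(A_t - t)_{t ∈ T}` vanish in `T` because they kill `M`), then linear algebra over `Frac O`.
No hypothesis on the characteristic.
-/

noncomputable section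

open TensorProduct Matrix

namespace Fermat.Agent.F3EP

section Rows

variable {K : Type*} [Field K] {n : Type*} [Fintype n] [DecidableEq n]

/-- If every `n × n` minor of a family of rows in `K ^ n` vanishes, the rows have a common
nonzero orthogonal vector. -/
theorem exists_common_kernel_of_minors {A : Type*} (w : A → n → K)
    (hdet : ∀ f : n → A, (Matrix.of fun k => w (f k)).det = 0) :
    ∃ x : n → K, x ≠ 0 ∧ ∀ α, ∑ k, w α k * x k = 0 := by
  classical
  by_contra hcon
  push Not at hcon
  have hspan : Submodule.span K (Set.range w) = ⊤ := by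
    by_contra hne
    obtain ⟨f, hf0, hle⟩ := Submodule.exists_le_ker_of_lt_top _ (lt_top_iff_ne_top.mpr hne)
    have hfx : ∀ y : n → K, f y = ∑ k, y k * f (Pi.single k 1) := by
      intro y
      conv_lhs => rw [← Finset.univ_sum_single y]
      rw [map_sum]
      refine Finset.sum_congr rfl fun k _ => ?_
      have : (Pi.single k (y k) : n → K) = y k • Pi.single k 1 := by
        rw [← Pi.single_smul, smul_eq_mul, mul_one]
      rw [this, map_smul, smul_eq_mul]
    have hx0 : (fun k => f (Pi.single k 1)) ≠ 0 := by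
      intro h0
      apply hf0
      refine LinearMap.ext fun y => ?_
      rw [hfx y]
      have h0' : ∀ k, f (Pi.single k 1) = 0 := fun k => congrFun h0 k
      simp [h0']
    obtain ⟨α, hα⟩ := hcon _ hx0
    apply hα
    have hmem : w α ∈ LinearMap.ker f := hle (Submodule.subset_span ⟨α, rfl⟩)
    rw [LinearMap.mem_ker, hfx] at hmem
    exact hmem
  obtain ⟨f, hf⟩ := Fermat.Agent.F3Eig.exists_submatrix_det_ne_zero w hspan
  exact hf (hdet f)

end Rows

section DetTrick

variable {T : Type*} [CommRing T] {ι : Type*} [Fintype ι] [DecidableEq ι]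

/-- The universal row `(t, k)`: the `k`-th row of `A_t - t • 1`, with entries in `T`. -/
def univRow (A : T →+* Matrix ι ι ℤ) (α : T × ι) (l : ι) : T :=
  ((A α.1 α.2 l : ℤ) : T) - if α.2 = l then α.1 else 0

/-- The contraction of the rows against the generators of the dual lattice vanishes. -/
theorem sum_map_univRow (A : T →+* Matrix ι ι ℤ) (α : T × ι) (m : ι) :
    ∑ l, A (univRow A α l) l m = 0 := by
  classical
  have h : ∀ l, A (univRow A α l) l m =
      A α.1 α.2 l * (if l = m then 1 else 0) - if α.2 = l then A α.1 l m else 0 := by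
    intro l
    unfold univRow
    rw [map_sub, map_intCast, ← zsmul_one (A α.1 α.2 l), Matrix.sub_apply, Matrix.smul_apply,
      Matrix.one_apply, smul_eq_mul]
    by_cases hl : α.2 = l
    · simp [hl]
    · simp [hl]
  simp only [h, Finset.sum_sub_distrib]
  simp

/-- **Determinant trick**: every `r × r` minor of the universal stacked system vanishes in `T`
when `T` acts faithfully. -/
theorem det_univRow_eq_zero (A : T →+* Matrix ι ι ℤ) (hA : Function.Injective A)
    (f : ι → T × ι) : (Matrix.of fun i => univRow A (f i)).det = 0 := by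
  classical
  set P : Matrix ι ι T := Matrix.of fun i => univRow A (f i) with hP
  apply hA
  rw [map_zero]
  ext k m
  rw [Matrix.zero_apply]
  -- `(adj P * P) k l = det P * δ_{kl}`
  have hadj : ∀ l, ∑ i, P.adjugate k i * P i l = if k = l then P.det else 0 := by
    intro l
    have h := congrFun (congrFun (Matrix.adjugate_mul P) k) l
    rw [Matrix.mul_apply, Matrix.smul_apply, Matrix.one_apply, smul_eq_mul] at h
    rw [h]
    split_ifs <;> simp
  have h1 : A P.det k m = ∑ l, A (∑ i, P.adjugate k i * P i l) l m := by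
    simp only [hadj]
    rw [Finset.sum_eq_single k]
    · simp
    · intro l _ hl
      rw [if_neg (Ne.symm hl), map_zero, Matrix.zero_apply]
    · intro h; exact absurd (Finset.mem_univ k) h
  rw [h1]
  have h2 : ∀ l, A (∑ i, P.adjugate k i * P i l) l m =
      ∑ i, ∑ j, A (P i l) l j * A (P.adjugate k i) j m := by
    intro l
    rw [map_sum, Matrix.sum_apply]
    refine Finset.sum_congr rfl fun i _ => ?_
    rw [mul_comm, map_mul, Matrix.mul_apply]
  simp only [h2]
  rw [Finset.sum_comm]
  refine Finset.sum_eq_zero fun i _ => ?_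
  rw [Finset.sum_comm]
  refine Finset.sum_eq_zero fun j _ => ?_
  rw [← Finset.sum_mul]
  have h3 : ∑ l, A (P i l) l j = 0 := sum_map_univRow A (f i) j
  rw [h3, zero_mul]

/-- Matrix form of the eigenvector theorem. -/
theorem exists_eigenvector_matrix {K : Type*} [Field K] (A : T →+* Matrix ι ι ℤ)
    (hA : Function.Injective A) (χ : T →+* K) :
    ∃ x : ι → K, x ≠ 0 ∧
      ∀ (t : T) (k : ι), ∑ l, (((A t k l : ℤ) : K) - χ t * (if k = l then 1 else 0)) * x l = 0 := by
  classical
  let w : T × ι → ι → K := fun α l => χ (univRow A α l)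
  have hw : ∀ (f : ι → T × ι), (Matrix.of fun i => w (f i)).det = 0 := by
    intro f
    have h := det_univRow_eq_zero A hA f
    have h2 : (Matrix.of fun i => w (f i)) = (Matrix.of fun i => univRow A (f i)).map χ := by
      ext i l; rfl
    rw [h2, ← RingHom.mapMatrix_apply, ← RingHom.map_det, h, map_zero]
  obtain ⟨x, hx0, hx⟩ := exists_common_kernel_of_minors w hw
  refine ⟨x, hx0, fun t k => ?_⟩
  have h := hx (t, k)
  refine Eq.trans (Finset.sum_congr rfl fun l _ => ?_) h
  simp only [w, univRow, map_sub, map_intCast, apply_ite χ, map_zero]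
  congr 1
  split_ifs <;> simp

/-- Matrix form of the eigenvector theorem over a domain. -/
theorem exists_eigenvector_matrix_domain {O : Type*} [CommRing O] [IsDomain O]
    (A : T →+* Matrix ι ι ℤ) (hA : Function.Injective A) (χ : T →+* O) :
    ∃ y : ι → O, y ≠ 0 ∧
      ∀ (t : T) (k : ι), ∑ l, (((A t k l : ℤ) : O) - χ t * (if k = l then 1 else 0)) * y l = 0 := by
  classical
  obtain ⟨x, hx0, hx⟩ := exists_eigenvector_matrix A hA
    ((algebraMap O (FractionRing O)).comp χ)
  obtain ⟨d, hd⟩ := IsLocalization.exist_integer_multiples (nonZeroDivisors O)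
    (Finset.univ : Finset ι) x
  have hd0 : (algebraMap O (FractionRing O)) (d : O) ≠ 0 := by
    intro h
    have := (IsFractionRing.injective O (FractionRing O)) (h.trans (map_zero _).symm)
    exact nonZeroDivisors.ne_zero d.2 this
  choose y hy using fun l => hd l (Finset.mem_univ l)
  refine ⟨y, ?_, fun t k => ?_⟩
  · intro h0
    apply hx0
    ext l
    have h1 := hy l
    rw [h0, Pi.zero_apply, map_zero, Algebra.smul_def] at h1
    rcases mul_eq_zero.mp h1.symm with h2 | h2
    · exact absurd h2 hd0
    · simpa using h2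
  · apply IsFractionRing.injective O (FractionRing O)
    rw [map_zero, map_sum]
    have h := hx t k
    have h2 : ∀ l, algebraMap O (FractionRing O)
        ((((A t k l : ℤ) : O) - χ t * (if k = l then 1 else 0)) * y l) =
        algebraMap O (FractionRing O) (d : O) *
          ((((A t k l : ℤ) : FractionRing O) -
            ((algebraMap O (FractionRing O)).comp χ) t * (if k = l then 1 else 0)) * x l) := by
      intro l
      rw [map_mul, hy l, Algebra.smul_def, map_sub, map_intCast, map_mul, RingHom.comp_apply,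
        apply_ite (algebraMap O (FractionRing O)), map_one, map_zero]
      ring
    simp only [h2]
    rw [← Finset.mul_sum, h, mul_zero]

end DetTrick

section Tensor

variable {T : Type*} [CommRing T]
  {M : Type*} [AddCommGroup M] [Module.Free ℤ M] [Module.Finite ℤ M]

/-- Field form: a character of `T` occurs in `K ⊗ M` for every field `K`. -/
theorem exists_eigenvector_of_character_field (θ : T →+* Module.End ℤ M)
    (hθ : Function.Injective θ) {K : Type*} [Field K] (χ : T →+* K) :
    ∃ x : K ⊗[ℤ] M, x ≠ 0 ∧ ∀ t : T, (θ t).baseChange K x = χ t • x := by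
  classical
  set b := Module.Free.chooseBasis ℤ M with hb
  let A : T →+* Matrix (Module.Free.ChooseBasisIndex ℤ M) (Module.Free.ChooseBasisIndex ℤ M) ℤ :=
    ((LinearMap.toMatrixAlgEquiv b).toAlgHom.toRingHom).comp θ
  have hA : Function.Injective A := by
    intro s t h
    apply hθ
    exact (LinearMap.toMatrixAlgEquiv b).injective h
  have hAt : ∀ t, A t = LinearMap.toMatrix b b (θ t) := fun t => rfl
  obtain ⟨x, hx0, hx⟩ := exists_eigenvector_matrix A hA χ
  refine ⟨(Algebra.TensorProduct.basis K b).repr.symm (Finsupp.equivFunOnFinite.symm x), ?_, ?_⟩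
  · intro h0
    apply hx0
    have := congrArg (Algebra.TensorProduct.basis K b).repr h0
    rw [LinearEquiv.apply_symm_apply, map_zero] at this
    ext l
    simpa using DFunLike.congr_fun this l
  · intro t
    rw [Fermat.Agent.F3Eig.baseChange_eq_smul_iff]
    intro k
    have h := hx t k
    refine Eq.trans (Finset.sum_congr rfl fun l _ => ?_) h
    simp only [LinearEquiv.apply_symm_apply, Finsupp.equivFunOnFinite_symm_apply_apply, hAt, hb]

/-- **Domain form**: a character `χ : T →+* O` of a commutative ring acting faithfully on a finite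
free `ℤ`-module `M` occurs in `O ⊗ M`, for every domain `O`. -/
theorem exists_eigenvector_of_character (θ : T →+* Module.End ℤ M)
    (hθ : Function.Injective θ) {O : Type*} [CommRing O] [IsDomain O] (χ : T →+* O) :
    ∃ x : O ⊗[ℤ] M, x ≠ 0 ∧ ∀ t : T, (θ t).baseChange O x = χ t • x := by
  classical
  set b := Module.Free.chooseBasis ℤ M with hb
  let A : T →+* Matrix (Module.Free.ChooseBasisIndex ℤ M) (Module.Free.ChooseBasisIndex ℤ M) ℤ :=
    ((LinearMap.toMatrixAlgEquiv b).toAlgHom.toRingHom).comp θ
  have hA : Function.Injective A := by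
    intro s t h
    apply hθ
    exact (LinearMap.toMatrixAlgEquiv b).injective h
  have hAt : ∀ t, A t = LinearMap.toMatrix b b (θ t) := fun t => rfl
  obtain ⟨x, hx0, hx⟩ := exists_eigenvector_matrix_domain A hA χ
  refine ⟨(Algebra.TensorProduct.basis O b).repr.symm (Finsupp.equivFunOnFinite.symm x), ?_, ?_⟩
  · intro h0
    apply hx0
    have := congrArg (Algebra.TensorProduct.basis O b).repr h0
    rw [LinearEquiv.apply_symm_apply, map_zero] at this
    ext l
    simpa using DFunLike.congr_fun this l
  · intro t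
    rw [Fermat.Agent.F3Eig.baseChange_eq_smul_iff]
    intro k
    have h := hx t k
    refine Eq.trans (Finset.sum_congr rfl fun l _ => ?_) h
    simp only [LinearEquiv.apply_symm_apply, Finsupp.equivFunOnFinite_symm_apply_apply, hAt, hb]

end Tensor

end Fermat.Agent.F3EP
end
end MergeWrap_F3_EigenPadic_Algebra

section MergeWrap_F3_EigenPadic_Theta -- from F3/EigenPadic/Theta.lean

set_option autoImplicit false

/-!
# Cluster A (F3), p-adic eigenclass: the Hecke algebra acts faithfully on `HomPar N`
(owner: helper21)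

From the Eichler–Shimura isomorphism `S₂ × S₂ ≃ Hom_par(Γ₀(N), ℂ)` (S21), the Hecke-equivariance of
the period map (helper83, `periodMap_heckeT`), and the lattice `HomPar N` (helper83), we build an
injective ring homomorphism

  `theta : heckeAlgebra N 2 S →+* Module.End ℤ (HomPar N)`,   `theta (T_ℓ) = heckeHom N ℓ`

(for `S` containing the primes dividing `N`).  Input: `HeckeInvolutionComm N` (the coset Hecke
operator commutes with the Prelude's `charInvolution`).
-/

set_option linter.unusedSectionVars false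

noncomputable section

namespace Fermat.Agent.F3EP

open CongruenceSubgroup ModularCurve ModularCurve.Period Fermat.Agent.F3EC
open scoped TensorProduct MatrixGroups

/-- (P1) The coset Hecke operator on `Hom(Γ₀(N), ℂ)` commutes with the Prelude's involution. -/
def HeckeInvolutionComm (N : ℕ) : Prop :=
  ∀ (ℓ : ℕ) [Fact ℓ.Prime] (hℓN : ¬ ℓ ∣ N) (c : Additive (Gamma0 N) →+ ℂ),
    heckeHomAll hℓN ℂ (charInvolution N ℂ ℂ c) = charInvolution N ℂ ℂ (heckeHomAll hℓN ℂ c)

variable (N : ℕ) [NeZero N]

local notation "S₂" => CuspForm (Gamma0 N) 2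

/-- (P2) The Eichler–Shimura map `periodHomPair` is Hecke-equivariant. -/
theorem periodHomPair_hecke (hI : HeckeInvolutionComm N) {ℓ : ℕ} [Fact ℓ.Prime] (hℓ : ℓ.Prime)
    (hℓN : ¬ ℓ ∣ N) (v : S₂ × S₂) :
    periodHomPair N ((CuspForm.heckeTLin 2 hℓ hℓN).prodMap (CuspForm.heckeTLin 2 hℓ hℓN) v) =
      heckeHomAll hℓN ℂ (periodHomPair N v) := by
  obtain ⟨f, g⟩ := v
  rw [LinearMap.prodMap_apply, Fermat.Agent.S21.periodHomPair_apply,
    Fermat.Agent.S21.periodHomPair_apply, periodMap_heckeT hℓ hℓN, periodMap_heckeT hℓ hℓN,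
    map_add, map_add, map_sub, hI ℓ hℓN, hI ℓ hℓN]

/-- The comparison map takes values in the parabolic homomorphisms. -/
theorem compMap_mem_parabolicHoms (t : ℂ ⊗[ℤ] HomPar N) :
    compMap N t ∈ parabolicHoms ℂ (Gamma0 N) ℂ := by
  induction t using TensorProduct.induction_on with
  | zero => rw [map_zero]; exact Submodule.zero_mem _
  | tmul z c =>
    intro γ hγ
    rw [compMap_tmul]
    have h := c.2 γ hγ
    rw [h]
    simp
  | add x y hx hy => rw [map_add]; exact Submodule.add_mem _ hx hy

theorem range_compMap : LinearMap.range (compMap N) = parabolicHoms ℂ (Gamma0 N) ℂ := by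
  apply le_antisymm
  · rintro _ ⟨t, rfl⟩
    exact compMap_mem_parabolicHoms N t
  · intro c hc
    exact mem_range_compMap N (mem_parabolicHoms_iff.mp hc)

/-- The Eichler–Shimura isomorphism `S₂ × S₂ ≃ ℂ ⊗ Hom_par(Γ₀(N), ℤ)`. -/
def periodEquiv : (S₂ × S₂) ≃ₗ[ℂ] ℂ ⊗[ℤ] HomPar N :=
  (LinearEquiv.ofInjective (periodHomPair N) (Fermat.Agent.S21.result N).1) ≪≫ₗ
    (LinearEquiv.ofEq _ _ ((Fermat.Agent.S21.result N).2.trans (range_compMap N).symm)) ≪≫ₗ
    (LinearEquiv.ofInjective (compMap N) (compMap_injective N)).symm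

theorem compMap_periodEquiv (v : S₂ × S₂) :
    compMap N (periodEquiv N v) = periodHomPair N v := by
  unfold periodEquiv
  simp only [LinearEquiv.trans_apply]
  have h := LinearEquiv.apply_symm_apply (LinearEquiv.ofInjective (compMap N) (compMap_injective N))
    ((LinearEquiv.ofEq _ _ ((Fermat.Agent.S21.result N).2.trans (range_compMap N).symm))
      ((LinearEquiv.ofInjective (periodHomPair N) (Fermat.Agent.S21.result N).1) v))
  have h2 := congrArg Subtype.val h
  rw [LinearEquiv.ofInjective_apply] at h2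
  rw [h2]
  rfl

/-- Transport of endomorphisms of `S₂` to `ℂ ⊗ HomPar N` (diagonal action, conjugated by the
Eichler–Shimura isomorphism). -/
def tauHom : Module.End ℂ S₂ →+* Module.End ℂ (ℂ ⊗[ℤ] HomPar N) :=
  ((periodEquiv N).conjRingEquiv : Module.End ℂ (S₂ × S₂) ≃+* _).toRingHom.comp
    ((LinearMap.prodMapRingHom ℂ S₂ S₂).comp
      (RingHom.prod (RingHom.id (Module.End ℂ S₂)) (RingHom.id (Module.End ℂ S₂))))

theorem tauHom_apply (t : Module.End ℂ S₂) (y : ℂ ⊗[ℤ] HomPar N) :
    tauHom N t y = periodEquiv N ((t.prodMap t) ((periodEquiv N).symm y)) := rfl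

theorem tauHom_injective : Function.Injective (tauHom N) := by
  intro s t h
  refine LinearMap.ext fun f => ?_
  have h1 := congrArg (fun φ => φ (periodEquiv N (f, 0))) h
  simp only [tauHom_apply, LinearEquiv.symm_apply_apply, LinearMap.prodMap_apply] at h1
  have h2 := (periodEquiv N).injective h1
  exact congrArg Prod.fst h2

/-- (P3, generators) `tauHom` sends `T_ℓ` to the base change of the coset Hecke operator. -/
theorem tauHom_heckeTLin (hI : HeckeInvolutionComm N) {ℓ : ℕ} (hℓ : ℓ.Prime) (hℓN : ¬ ℓ ∣ N) :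
    tauHom N (CuspForm.heckeTLin 2 hℓ hℓN) = (heckeHom N ⟨ℓ, hℓ⟩).baseChange ℂ := by
  have : Fact ℓ.Prime := ⟨hℓ⟩
  refine LinearMap.ext fun y => ?_
  apply compMap_injective N
  rw [tauHom_apply, compMap_periodEquiv, periodHomPair_hecke N hI hℓ hℓN,
    ← compMap_periodEquiv, LinearEquiv.apply_symm_apply]
  exact (compMap_heckeHom (N := N) ⟨ℓ, hℓ⟩ hℓN y).symm

/-- base change `End_ℤ (HomPar N) → End_ℂ (ℂ ⊗ HomPar N)` as a ring homomorphism. -/
def betaHom : Module.End ℤ (HomPar N) →+* Module.End ℂ (ℂ ⊗[ℤ] HomPar N) :=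
  (Module.End.baseChangeHom ℤ ℂ (HomPar N)).toRingHom

theorem betaHom_apply (f : Module.End ℤ (HomPar N)) : betaHom N f = f.baseChange ℂ := rfl

theorem betaHom_injective : Function.Injective (betaHom N) := by
  intro f g h
  refine LinearMap.ext fun c => ?_
  have h1 := congrArg (fun φ => compMap N (φ ((1 : ℂ) ⊗ₜ[ℤ] c))) h
  simp only [betaHom_apply, LinearMap.baseChange_tmul] at h1
  apply Subtype.ext
  refine AddMonoidHom.ext fun γ => ?_
  have h2 := DFunLike.congr_fun h1 γ
  rw [compMap_tmul, compMap_tmul, one_mul, one_mul] at h2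
  exact_mod_cast h2

variable {N}

/-- (P3) every element of the Hecke algebra (away from `S ⊇ {q ∣ N}`) preserves the lattice. -/
theorem exists_betaHom_eq_tauHom (hI : HeckeInvolutionComm N) {S : Set ℕ}
    (hNS : ∀ q : ℕ, q.Prime → q ∣ N → q ∈ S) (t : CuspForm.heckeAlgebra N 2 S) :
    ∃ f : Module.End ℤ (HomPar N), betaHom N f = tauHom N (t : Module.End ℂ S₂) := by
  obtain ⟨t, ht⟩ := t
  show ∃ f : Module.End ℤ (HomPar N), betaHom N f = tauHom N t
  induction ht using Algebra.adjoin_induction with
  | mem x hx =>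
    rcases hx with ⟨ℓ, hℓ, hℓN, -, rfl⟩ | ⟨q, hqN, hq, hqS, rfl⟩
    · exact ⟨heckeHom N ⟨ℓ, hℓ⟩, (tauHom_heckeTLin N hI hℓ hℓN).symm⟩
    · exact absurd (hNS q hq hqN) hqS
  | algebraMap r =>
    refine ⟨(r : Module.End ℤ (HomPar N)), ?_⟩
    rw [eq_intCast, map_intCast, map_intCast]
  | add x y _ _ hx hy =>
    obtain ⟨f, hf⟩ := hx
    obtain ⟨g, hg⟩ := hy
    exact ⟨f + g, by rw [map_add, map_add, hf, hg]⟩
  | mul x y _ _ hx hy =>
    obtain ⟨f, hf⟩ := hx
    obtain ⟨g, hg⟩ := hy
    exact ⟨f * g, by rw [map_mul, map_mul, hf, hg]⟩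

/-- (P3) The action of the Hecke algebra on the lattice `HomPar N`. -/
def theta (hI : HeckeInvolutionComm N) {S : Set ℕ}
    (hNS : ∀ q : ℕ, q.Prime → q ∣ N → q ∈ S) :
    CuspForm.heckeAlgebra N 2 S →+* Module.End ℤ (HomPar N) where
  toFun t := (exists_betaHom_eq_tauHom hI hNS t).choose
  map_one' := by
    apply betaHom_injective N
    rw [(exists_betaHom_eq_tauHom hI hNS 1).choose_spec, map_one]
    exact map_one (tauHom N)
  map_mul' s t := by
    apply betaHom_injective N
    rw [(exists_betaHom_eq_tauHom hI hNS (s * t)).choose_spec, map_mul,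
      (exists_betaHom_eq_tauHom hI hNS s).choose_spec,
      (exists_betaHom_eq_tauHom hI hNS t).choose_spec]
    exact map_mul (tauHom N) _ _
  map_zero' := by
    apply betaHom_injective N
    rw [(exists_betaHom_eq_tauHom hI hNS 0).choose_spec, map_zero]
    exact map_zero (tauHom N)
  map_add' s t := by
    apply betaHom_injective N
    rw [(exists_betaHom_eq_tauHom hI hNS (s + t)).choose_spec, map_add,
      (exists_betaHom_eq_tauHom hI hNS s).choose_spec,
      (exists_betaHom_eq_tauHom hI hNS t).choose_spec]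
    exact map_add (tauHom N) _ _

theorem betaHom_theta (hI : HeckeInvolutionComm N) {S : Set ℕ}
    (hNS : ∀ q : ℕ, q.Prime → q ∣ N → q ∈ S) (t : CuspForm.heckeAlgebra N 2 S) :
    betaHom N (theta hI hNS t) = tauHom N (t : Module.End ℂ S₂) :=
  (exists_betaHom_eq_tauHom hI hNS t).choose_spec

theorem theta_injective (hI : HeckeInvolutionComm N) {S : Set ℕ}
    (hNS : ∀ q : ℕ, q.Prime → q ∣ N → q ∈ S) : Function.Injective (theta hI hNS) := by
  intro s t h
  apply Subtype.ext
  apply tauHom_injective N
  rw [← betaHom_theta hI hNS s, ← betaHom_theta hI hNS t, h]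

theorem theta_T (hI : HeckeInvolutionComm N) {S : Set ℕ}
    (hNS : ∀ q : ℕ, q.Prime → q ∣ N → q ∈ S) {ℓ : ℕ} (hℓ : ℓ.Prime) (hℓN : ¬ ℓ ∣ N)
    (hℓS : ℓ ∉ S) :
    theta hI hNS (CuspForm.heckeAlgebra.T hℓ hℓN hℓS) = heckeHom N ⟨ℓ, hℓ⟩ := by
  apply betaHom_injective N
  rw [betaHom_theta, CuspForm.heckeAlgebra.coe_T, tauHom_heckeTLin N hI hℓ hℓN]
  rfl

/-- **Period side of the `p`-adic eigenclass**: every character `χ` of the Hecke algebra with
values in a domain `O` occurs in `O ⊗ Hom_par(Γ₀(N), ℤ)`. -/
theorem exists_eigenvector_homPar (hI : HeckeInvolutionComm N) {S : Set ℕ}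
    (hNS : ∀ q : ℕ, q.Prime → q ∣ N → q ∈ S)
    {O : Type*} [CommRing O] [IsDomain O] (χ : CuspForm.heckeAlgebra N 2 S →+* O) :
    ∃ x : O ⊗[ℤ] HomPar N, x ≠ 0 ∧
      ∀ (ℓ : ℕ) (hℓ : ℓ.Prime) (hℓN : ¬ ℓ ∣ N) (hℓS : ℓ ∉ S),
        (heckeHom N ⟨ℓ, hℓ⟩).baseChange O x = χ (CuspForm.heckeAlgebra.T hℓ hℓN hℓS) • x := by
  obtain ⟨x, hx0, hx⟩ := exists_eigenvector_of_character (theta hI hNS) (theta_injective hI hNS) χ
  refine ⟨x, hx0, fun ℓ hℓ hℓN hℓS => ?_⟩
  rw [← theta_T hI hNS hℓ hℓN hℓS]
  exact hx _

end Fermat.Agent.F3EP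
end
end MergeWrap_F3_EigenPadic_Theta
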